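import Fermat.Agent.H25.Recip.Interfaces
import Fermat.Agent.H5.S14.CycloExp
import Fermat.Agent.H81.Local.EFBase

/-!
# P-CFT / RECIP-Q, row RQ-UNR (helper90): `FieldMUnramStatement`

`M = fieldM ℓ p` at a prime `v ≠ ℓ`.  Everything follows from helper49's Galois orbit lemma
`exists_pow_of_algEquiv`: an element `g` of `G_{K_v}` maps a primitive `N`-th root of unity `ξ`,
`N` prime to `v`, to `ξ ^ (v ^ n)`.  With `N = v ^ (p (ℓ - 1)) - 1` this computes at the same time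
the cyclotomic character `cycloChar ℓ g = v ^ n` and the restriction of `g` to
`unramExt v K_v p = K_v(μ_{v^p - 1})` (trivial iff `p ∣ n`; the Frobenius iff `n ≡ 1 mod p`).
-/

set_option autoImplicit false
set_option synthInstance.maxHeartbeats 400000
set_option maxHeartbeats 1000000
set_option linter.style.haveILetI false
set_option linter.unusedSectionVars false

namespace Fermat.Agent.H90.RQUnr

open Fermat.Agent.H13.Cft Fermat.Agent.H78.CFT Fermat.Agent.H81.Local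
open Fermat.Agent.H49.Unram Fermat.Agent.H25.Recip ExtCitation

noncomputable section

/-- **Galois orbit** (helper49): `g ∈ G_{K_v}` maps a primitive `N`-th root of unity `ξ`, `N`
prime to `v`, to `ξ ^ (v ^ n)`. -/
theorem exists_pow_of_mem_fixingSubgroup (v : ℕ) [Fact v.Prime] {N : ℕ} (hN : v.Coprime N)
    {ξ : Qb} (hξ : IsPrimitiveRoot ξ N) (g : (localField v).fixingSubgroup) :
    ∃ n : ℕ, (g : Qb ≃ₐ[ℚ] Qb) ξ = ξ ^ (v ^ n) := by
  obtain ⟨j, -, hj⟩ := exists_pow_of_algEquiv (residueDatum_localField v) hN hξ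
    (IntermediateField.fixingSubgroupEquiv (localField v) g)
  exact ⟨j, hj⟩

/-- The cyclotomic character is computed on a primitive `ℓ`-th root of unity. -/
theorem coe_cycloChar_of_apply (ℓ : ℕ) [Fact ℓ.Prime] {ζ : Qb} (hζ : IsPrimitiveRoot ζ ℓ)
    (g : Qb ≃ₐ[ℚ] Qb) (k : ℕ) (h : g ζ = ζ ^ k) :
    ((cycloChar ℓ g : (ZMod ℓ)ˣ) : ZMod ℓ) = (k : ZMod ℓ) := by
  have hℓ : ℓ.Prime := Fact.out
  have h1 := Fermat.Agent.H5.cycloExp_spec ℓ ζ hζ.pow_eq_one g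
  rw [h] at h1
  have h2 : k ≡ cycloExp ℓ g [MOD ℓ] := by
    have := (hζ.isOfFinOrder hℓ.ne_zero).pow_eq_pow_iff_modEq.mp h1
    rwa [← hζ.eq_orderOf] at this
  rw [coe_cycloChar]
  exact ((ZMod.natCast_eq_natCast_iff _ _ _).mpr h2).symm

/-- The class of `v` in `(ℤ/ℓ)ˣ`. -/
theorem coe_unitMod {ℓ v : ℕ} (hℓ : ℓ.Prime) (hv : v.Prime) (hvℓ : v ≠ ℓ) :
    ((unitMod ℓ (v : ℤ) : (ZMod ℓ)ˣ) : ZMod ℓ) = (v : ZMod ℓ) := by
  have hcop : v.Coprime ℓ := (Nat.coprime_primes hv hℓ).mpr hvℓ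
  have hu : IsUnit (((v : ℤ)) : ZMod ℓ) := by
    rw [Int.cast_natCast]
    exact (ZMod.isUnit_iff_coprime v ℓ).mpr hcop
  unfold unitMod
  rw [dif_pos hu, IsUnit.unit_spec, Int.cast_natCast]

/-- `cycloChar ℓ g = v ^ n` from the action on a primitive `ℓ`-th root of unity. -/
theorem cycloChar_eq_unitMod_pow {ℓ v : ℕ} [Fact ℓ.Prime] (hv : v.Prime) (hvℓ : v ≠ ℓ)
    {ζ : Qb} (hζ : IsPrimitiveRoot ζ ℓ) (g : Qb ≃ₐ[ℚ] Qb) (n : ℕ) (h : g ζ = ζ ^ (v ^ n)) :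
    cycloChar ℓ g = unitMod ℓ (v : ℤ) ^ n := by
  apply Units.ext
  rw [coe_cycloChar_of_apply ℓ hζ g _ h, Units.val_pow_eq_pow_val,
    coe_unitMod (Fact.out : ℓ.Prime) hv hvℓ, Nat.cast_pow]

/-- Primitive roots of unity exist in `ℚ̄`. -/
theorem exists_primitiveRoot_qb (N : ℕ) (hN : N ≠ 0) : ∃ ξ : Qb, IsPrimitiveRoot ξ N := by
  haveI : NeZero ((N : ℕ) : Qb) := ⟨by exact_mod_cast hN⟩
  exact HasEnoughRootsOfUnity.exists_primitiveRoot Qb N

/-- **(1)** `G_{K_v}` acts on `μ_ℓ` through powers of `v`. -/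
theorem cycloChar_mem_powers {ℓ v : ℕ} [Fact ℓ.Prime] [Fact v.Prime] (hvℓ : v ≠ ℓ)
    (g : (localField v).fixingSubgroup) :
    ∃ n : ℕ, cycloChar ℓ (g : Qb ≃ₐ[ℚ] Qb) = unitMod ℓ (v : ℤ) ^ n := by
  have hℓ : ℓ.Prime := Fact.out
  have hv : v.Prime := Fact.out
  obtain ⟨ζ, hζ⟩ := exists_primitiveRoot_qb ℓ hℓ.ne_zero
  obtain ⟨n, hn⟩ := exists_pow_of_mem_fixingSubgroup v ((Nat.coprime_primes hv hℓ).mpr hvℓ) hζ g
  exact ⟨n, cycloChar_eq_unitMod_pow hv hvℓ hζ _ n hn⟩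

/-- `ℓ ∣ v ^ (ℓ - 1) - 1` (Fermat). -/
theorem dvd_pow_sub_one_fermat {ℓ v : ℕ} (hℓ : ℓ.Prime) (hv : v.Prime) (hvℓ : v ≠ ℓ) :
    ℓ ∣ v ^ (ℓ - 1) - 1 := by
  haveI : Fact ℓ.Prime := ⟨hℓ⟩
  have hcop : v.Coprime ℓ := (Nat.coprime_primes hv hℓ).mpr hvℓ
  have h0 : (v : ZMod ℓ) ≠ 0 := by
    intro h
    rw [ZMod.natCast_eq_zero_iff] at h
    exact hvℓ ((Nat.prime_dvd_prime_iff_eq hℓ hv).mp h).symm
  have h1 := ZMod.pow_card_sub_one_eq_one h0
  have hpos : 1 ≤ v ^ (ℓ - 1) := Nat.one_le_pow _ _ hv.pos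
  rw [← ZMod.natCast_eq_zero_iff, Nat.cast_sub hpos, Nat.cast_pow, h1, Nat.cast_one, sub_self]

/-- **The simultaneous exponent**: there is a primitive `(v ^ p - 1)`-th root of unity `η` such
that every `g ∈ G_{K_v}` has an exponent `n` with `cycloChar ℓ g = v ^ n` and
`g η = η ^ (v ^ n)`. -/
theorem exists_exponent {p ℓ v : ℕ} [Fact p.Prime] [Fact ℓ.Prime] [Fact v.Prime] (hvℓ : v ≠ ℓ) :
    ∃ η : Qb, IsPrimitiveRoot η (v ^ p - 1) ∧ ∀ g : (localField v).fixingSubgroup,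
      ∃ n : ℕ, cycloChar ℓ (g : Qb ≃ₐ[ℚ] Qb) = unitMod ℓ (v : ℤ) ^ n ∧
        (g : Qb ≃ₐ[ℚ] Qb) η = η ^ (v ^ n) := by
  have hp : p.Prime := Fact.out
  have hℓ : ℓ.Prime := Fact.out
  have hv : v.Prime := Fact.out
  have hm : 0 < p * (ℓ - 1) := Nat.mul_pos hp.pos (Nat.sub_pos_of_lt hℓ.one_lt)
  set N : ℕ := v ^ (p * (ℓ - 1)) - 1 with hN
  have hcop : v.Coprime N := coprime_pow_sub_one v _ hv.pos hm
  have hN0 : N ≠ 0 := by
    have h1 : v ^ 1 ≤ v ^ (p * (ℓ - 1)) := Nat.pow_le_pow_right hv.pos hm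
    have h2 := hv.two_le
    rw [pow_one] at h1
    omega
  obtain ⟨ξ, hξ⟩ := exists_primitiveRoot_qb N hN0
  have hℓN : ℓ ∣ N := (dvd_pow_sub_one_fermat hℓ hv hvℓ).trans
    (Nat.pow_sub_one_dvd_pow_sub_one _ (Dvd.intro_left p rfl))
  have hN₁N : v ^ p - 1 ∣ N := Nat.pow_sub_one_dvd_pow_sub_one _ (Dvd.intro (ℓ - 1) rfl)
  have hζ : IsPrimitiveRoot (ξ ^ (N / ℓ)) ℓ :=
    hξ.pow (Nat.pos_of_ne_zero hN0) (Nat.div_mul_cancel hℓN).symm
  have hη : IsPrimitiveRoot (ξ ^ (N / (v ^ p - 1))) (v ^ p - 1) :=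
    hξ.pow (Nat.pos_of_ne_zero hN0) (Nat.div_mul_cancel hN₁N).symm
  refine ⟨_, hη, fun g => ?_⟩
  obtain ⟨n, hn⟩ := exists_pow_of_mem_fixingSubgroup v hcop hξ g
  have hpow : ∀ a : ℕ, (g : Qb ≃ₐ[ℚ] Qb) (ξ ^ a) = (ξ ^ a) ^ (v ^ n) := by
    intro a
    rw [map_pow, hn, ← pow_mul, ← pow_mul, mul_comm]
  exact ⟨n, cycloChar_eq_unitMod_pow hv hvℓ hζ _ n (hpow _), hpow _⟩

/-- The order of `v` modulo `v ^ p - 1` is `p`: `η ^ (v ^ n) = η ^ (v ^ m)` iff `n ≡ m mod p`. -/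
theorem pow_pow_eq_iff {p v : ℕ} (hp : 0 < p) (hv : 1 < v) {η : Qb}
    (hη : IsPrimitiveRoot η (v ^ p - 1)) (n m : ℕ) :
    η ^ (v ^ n) = η ^ (v ^ m) ↔ n ≡ m [MOD p] := by
  have hcop : v.Coprime (v ^ p - 1) := coprime_pow_sub_one v p (by omega) hp
  have hN0 : v ^ p - 1 ≠ 0 := by
    have h1 : v ^ 1 ≤ v ^ p := Nat.pow_le_pow_right (by omega) hp
    rw [pow_one] at h1
    omega
  rw [(hη.isOfFinOrder hN0).pow_eq_pow_iff_modEq, ← hη.eq_orderOf,
    ← ZMod.natCast_eq_natCast_iff]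
  have h1 : ∀ k : ℕ, ((v ^ k : ℕ) : ZMod (v ^ p - 1)) =
      ((ZMod.unitOfCoprime v hcop ^ k : (ZMod (v ^ p - 1))ˣ) : ZMod (v ^ p - 1)) := by
    intro k
    rw [Units.val_pow_eq_pow_val, ZMod.coe_unitOfCoprime, Nat.cast_pow]
  rw [h1, h1, ← Units.ext_iff, pow_eq_pow_iff_modEq, orderOf_unit_pow_sub_one hv hp hcop]

/-- `η ∈ unramExt v K_v p` for `η ^ (v ^ p - 1) = 1`. -/
theorem mem_unramExt_of_pow_eq_one {p v : ℕ} [Fact v.Prime] {η : Qb}
    (hη : η ^ (v ^ p - 1) = 1) : η ∈ unramExt v (localField v) p := by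
  unfold unramExt cyclo
  rw [resCard_localField]
  exact IntermediateField.subset_adjoin _ _ hη

/-- The restriction `resEF` is the restriction of the automorphism. -/
theorem coe_resEF (E : IntermediateField ℚ Qb) (F : IntermediateField E Qb) [Normal E F]
    (g : E.fixingSubgroup) (y : F) :
    ((resEF E F g y : F) : Qb) = (g : Qb ≃ₐ[ℚ] Qb) (y : Qb) :=
  AlgEquiv.restrictNormal_commutes (IntermediateField.fixingSubgroupEquiv E g) F y

/-- **(2)** a lift of the Frobenius of `unramExt v K_v p` acts on `μ_ℓ` as `v` times a `p`-th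
power. -/
theorem cycloChar_of_frob {p ℓ v : ℕ} [Fact p.Prime] [Fact ℓ.Prime] [Fact v.Prime]
    (hvℓ : v ≠ ℓ)
    (φ : unramExt v (localField v) p ≃ₐ[localField v] unramExt v (localField v) p)
    (hφ : IsFrobE v (localField v) p φ) (g : (localField v).fixingSubgroup)
    (hg : resEF (localField v) (unramExt v (localField v) p) g = φ) :
    ∃ u : (ZMod ℓ)ˣ, cycloChar ℓ (g : Qb ≃ₐ[ℚ] Qb) = unitMod ℓ (v : ℤ) * u ^ p := by
  have hp : p.Prime := Fact.out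
  have hv : v.Prime := Fact.out
  obtain ⟨η, hη, hex⟩ := exists_exponent (p := p) (ℓ := ℓ) hvℓ
  obtain ⟨n, hχ, hgη⟩ := hex g
  have hcop : v.Coprime (v ^ p - 1) := coprime_pow_sub_one v p hv.pos hp.pos
  have hN0 : v ^ p - 1 ≠ 0 := by
    have h1 : v ^ 1 ≤ v ^ p := Nat.pow_le_pow_right hv.pos hp.pos
    have h2 := hv.two_le
    rw [pow_one] at h1
    omega
  have hη1 : qVal v η = 1 := val_eq_one_of_pow_eq_one (qVal v) hN0 hη.pow_eq_one
  have hfrob := IsUnramCyclic.frob hφ ⟨η, mem_unramExt_of_pow_eq_one hη.pow_eq_one⟩ hη1.le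
  rw [← hg, coe_resEF, resCard_localField] at hfrob
  have h1 : (g : Qb ≃ₐ[ℚ] Qb) η = η ^ v := by
    refine eq_of_val_sub_lt_one (residueDatum_localField v) hcop ?_ ?_ hfrob
    · rw [← map_pow, hη.pow_eq_one, map_one]
    · rw [← pow_mul, mul_comm, pow_mul, hη.pow_eq_one, one_pow]
  have h2 : η ^ (v ^ n) = η ^ (v ^ 1) := by rw [← hgη, h1, pow_one]
  have h3 : n ≡ 1 [MOD p] := (pow_pow_eq_iff hp.pos hv.one_lt hη n 1).mp h2
  have h4 : n % p = 1 := by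
    rw [h3, Nat.mod_eq_of_lt hp.one_lt]
  refine ⟨unitMod ℓ (v : ℤ) ^ (n / p), ?_⟩
  rw [hχ, ← pow_mul, ← pow_succ']
  congr 1
  have := Nat.div_add_mod n p
  rw [h4] at this
  rw [mul_comm]
  exact this.symm

/-- **(3)** if `v` is a `p`-th power modulo `ℓ`, then `M ≤ K_v`. -/
theorem fieldM_le_localField {p ℓ v : ℕ} [Fact ℓ.Prime] [Fact v.Prime] (hvℓ : v ≠ ℓ)
    (h : ∃ u : (ZMod ℓ)ˣ, unitMod ℓ (v : ℤ) = u ^ p) : fieldM ℓ p ≤ localField v := by
  obtain ⟨u, hu⟩ := h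
  intro x hx
  rw [mem_localField_iff']
  intro σ hσ
  have hσ' : σ ∈ (localField v).fixingSubgroup := by
    rw [fixingSubgroup_localField]
    exact hσ
  obtain ⟨n, hn⟩ := cycloChar_mem_powers (ℓ := ℓ) hvℓ ⟨σ, hσ'⟩
  have hmem : σ ∈ powKer ℓ p := by
    show cycloChar ℓ σ ∈ (powMonoidHom p : (ZMod ℓ)ˣ →* (ZMod ℓ)ˣ).range
    refine ⟨u ^ n, ?_⟩
    rw [powMonoidHom_apply, hn, hu, ← pow_mul, ← pow_mul, mul_comm]
  exact (IntermediateField.mem_fixedField_iff _ _).mp hx σ hmem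

/-- `powKer ℓ p` contains the fixing subgroup of `ℚ(ζ_ℓ)`. -/
theorem fixingSubgroup_adjoin_le_powKer (ℓ p : ℕ) [Fact ℓ.Prime] {ζ : Qb}
    (hζ : IsPrimitiveRoot ζ ℓ) :
    (IntermediateField.adjoin ℚ {ζ}).fixingSubgroup ≤ powKer ℓ p := by
  intro g hg
  have hgζ : g ζ = ζ ^ 1 := by
    rw [pow_one]
    exact (IntermediateField.mem_fixingSubgroup_iff _ g).mp hg ζ
      (IntermediateField.mem_adjoin_simple_self ℚ ζ)
  have h1 : cycloChar ℓ g = 1 := by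
    apply Units.ext
    rw [coe_cycloChar_of_apply ℓ hζ g 1 hgζ]
    simp
  show cycloChar ℓ g ∈ (powMonoidHom p : (ZMod ℓ)ˣ →* (ZMod ℓ)ˣ).range
  exact ⟨1, by rw [h1, powMonoidHom_apply, one_pow]⟩

/-- `powKer ℓ p` is closed in the Krull topology (it is open). -/
theorem isClosed_powKer (ℓ p : ℕ) [Fact ℓ.Prime] :
    IsClosed (powKer ℓ p : Set (Qb ≃ₐ[ℚ] Qb)) := by
  have hℓ : ℓ.Prime := Fact.out
  obtain ⟨ζ, hζ⟩ := exists_primitiveRoot_qb ℓ hℓ.ne_zero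
  haveI : FiniteDimensional ℚ (IntermediateField.adjoin ℚ {ζ}) :=
    IntermediateField.adjoin.finiteDimensional
      ((AlgebraicClosure.isAlgebraic ℚ).isAlgebraic ζ).isIntegral
  have hopen : IsOpen ((IntermediateField.adjoin ℚ {ζ}).fixingSubgroup : Set (Qb ≃ₐ[ℚ] Qb)) :=
    IntermediateField.fixingSubgroup_isOpen _
  exact Subgroup.isClosed_of_isOpen _
    (Subgroup.isOpen_mono (fixingSubgroup_adjoin_le_powKer ℓ p hζ) hopen)

/-- `Gal(ℚ̄/M) = powKer`. -/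
theorem fixingSubgroup_fieldM (ℓ p : ℕ) [Fact ℓ.Prime] :
    (fieldM ℓ p).fixingSubgroup = powKer ℓ p := by
  haveI := Fermat.Agent.H81.isGalois_rat_Qbar
  exact InfiniteGalois.fixingSubgroup_fixedField
    (⟨powKer ℓ p, isClosed_powKer ℓ p⟩ : ClosedSubgroup (Qb ≃ₐ[ℚ] Qb))

/-- The fixing subgroup of `unramExt v K_v p` (as an extension of `ℚ`). -/
theorem mem_fixingSubgroup_unramExt {p v : ℕ} [Fact p.Prime] [Fact v.Prime] {η : Qb}
    (hη : IsPrimitiveRoot η (v ^ p - 1)) (g : Qb ≃ₐ[ℚ] Qb) :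
    g ∈ ((unramExt v (localField v) p).restrictScalars ℚ).fixingSubgroup ↔
      g ∈ (localField v).fixingSubgroup ∧ g η = η := by
  have hp : p.Prime := Fact.out
  have hv : v.Prime := Fact.out
  have hN0 : v ^ p - 1 ≠ 0 := by
    have h1 : v ^ 1 ≤ v ^ p := Nat.pow_le_pow_right hv.pos hp.pos
    have h2 := hv.two_le
    rw [pow_one] at h1
    omega
  haveI : NeZero (v ^ p - 1) := ⟨hN0⟩
  constructor
  · intro hg
    rw [IntermediateField.mem_fixingSubgroup_iff] at hg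
    refine ⟨?_, hg η ?_⟩
    · rw [IntermediateField.mem_fixingSubgroup_iff]
      intro x hx
      refine hg x ?_
      rw [IntermediateField.mem_restrictScalars]
      exact (unramExt v (localField v) p).algebraMap_mem ⟨x, hx⟩
    · rw [IntermediateField.mem_restrictScalars]
      exact mem_unramExt_of_pow_eq_one hη.pow_eq_one
  · rintro ⟨hgK, hgη⟩
    rw [IntermediateField.mem_fixingSubgroup_iff]
    intro x hx
    rw [IntermediateField.mem_restrictScalars] at hx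
    set σ : Qb ≃ₐ[localField v] Qb :=
      IntermediateField.fixingSubgroupEquiv (localField v) ⟨g, hgK⟩ with hσ
    have hσg : ∀ y : Qb, σ y = g y := fun y => rfl
    have hle : unramExt v (localField v) p ≤
        IntermediateField.fixedField (Subgroup.zpowers σ) := by
      unfold unramExt cyclo
      rw [resCard_localField, IntermediateField.adjoin_le_iff]
      intro y hy
      have hy' : y ^ (v ^ p - 1) = 1 := hy
      obtain ⟨i, -, rfl⟩ := hη.eq_pow_of_pow_eq_one hy'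
      show η ^ i ∈ IntermediateField.fixedField (Subgroup.zpowers σ)
      rw [IntermediateField.mem_fixedField_iff]
      intro τ hτ
      obtain ⟨k, rfl⟩ := Subgroup.mem_zpowers_iff.mp hτ
      have hση : σ η = η := by rw [hσg, hgη]
      have hfix : ∀ k : ℤ, (σ ^ k) η = η := by
        intro k
        have hmem : σ ∈ MulAction.stabilizer (Qb ≃ₐ[localField v] Qb) η := hση
        exact (Subgroup.zpow_mem _ hmem k)
      rw [map_pow, hfix k]
    have := (IntermediateField.mem_fixedField_iff _ _).mp (hle hx) σ (Subgroup.mem_zpowers σ)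
    rw [hσg] at this
    exact this

/-- `v ^ n` is a `p`-th power modulo `ℓ` iff `p ∣ n`, if `v` is not a `p`-th power. -/
theorem pow_mem_range_iff {G : Type*} [CommGroup G] {p : ℕ} (hp : p.Prime) {x : G}
    (hx : ¬ ∃ u : G, x = u ^ p) (n : ℕ) : (∃ u : G, x ^ n = u ^ p) ↔ p ∣ n := by
  constructor
  · rintro ⟨u, hu⟩
    by_contra hpn
    have hcop : Nat.Coprime n p := ((Nat.Prime.coprime_iff_not_dvd hp).mpr hpn).symm
    obtain ⟨a, -, ha⟩ := Nat.exists_mul_mod_eq_one_of_coprime hcop hp.one_lt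
    have h1 : n * a = p * (n * a / p) + 1 := by
      have := Nat.div_add_mod (n * a) p
      rw [ha] at this
      exact this.symm
    apply hx
    refine ⟨u ^ a * (x ^ (n * a / p))⁻¹, ?_⟩
    have h2 : x ^ (n * a) = (u ^ a) ^ p := by
      rw [pow_mul, hu, ← pow_mul, ← pow_mul, mul_comm]
    rw [h1, pow_succ, pow_mul'] at h2
    rw [mul_pow, inv_pow, ← h2]
    simp
  · rintro ⟨k, rfl⟩
    exact ⟨x ^ k, by rw [← pow_mul, mul_comm]⟩

/-- **(4)** if `v` is not a `p`-th power modulo `ℓ`, then `M · K_v` is the unramified extension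
of degree `p` of `K_v`. -/
theorem fieldM_sup_localField {p ℓ v : ℕ} [Fact p.Prime] [Fact ℓ.Prime] [Fact v.Prime]
    (hvℓ : v ≠ ℓ) (h : ¬ ∃ u : (ZMod ℓ)ˣ, unitMod ℓ (v : ℤ) = u ^ p) :
    fieldM ℓ p ⊔ localField v = (unramExt v (localField v) p).restrictScalars ℚ := by
  have hp : p.Prime := Fact.out
  have hv : v.Prime := Fact.out
  haveI := Fermat.Agent.H81.isGalois_rat_Qbar
  obtain ⟨η, hη, hex⟩ := exists_exponent (p := p) (ℓ := ℓ) hvℓ
  have key : (fieldM ℓ p ⊔ localField v).fixingSubgroup =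
      ((unramExt v (localField v) p).restrictScalars ℚ).fixingSubgroup := by
    ext g
    rw [IntermediateField.fixingSubgroup_sup, Subgroup.mem_inf, fixingSubgroup_fieldM,
      mem_fixingSubgroup_unramExt hη]
    constructor
    · rintro ⟨hgM, hgK⟩
      refine ⟨hgK, ?_⟩
      obtain ⟨n, hχ, hgη⟩ := hex ⟨g, hgK⟩
      have h1 : ∃ u : (ZMod ℓ)ˣ, unitMod ℓ (v : ℤ) ^ n = u ^ p := by
        obtain ⟨u, hu⟩ := hgM
        refine ⟨u, ?_⟩
        rw [← hχ]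
        exact hu.symm
      have h2 : p ∣ n := (pow_mem_range_iff hp h n).mp h1
      have h3 : n ≡ 0 [MOD p] := (Nat.modEq_zero_iff_dvd).mpr h2
      have h4 := (pow_pow_eq_iff hp.pos hv.one_lt hη n 0).mpr h3
      rw [pow_zero, pow_one] at h4
      exact hgη.trans h4
    · rintro ⟨hgK, hgη'⟩
      refine ⟨?_, hgK⟩
      obtain ⟨n, hχ, hgη⟩ := hex ⟨g, hgK⟩
      have h4 : η ^ (v ^ n) = η ^ (v ^ 0) := by
        rw [pow_zero, pow_one, ← hgη]
        exact hgη'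
      have h3 : n ≡ 0 [MOD p] := (pow_pow_eq_iff hp.pos hv.one_lt hη n 0).mp h4
      have h2 : p ∣ n := (Nat.modEq_zero_iff_dvd).mp h3
      obtain ⟨u, hu⟩ := (pow_mem_range_iff hp h n).mpr h2
      show cycloChar ℓ g ∈ (powMonoidHom p : (ZMod ℓ)ˣ →* (ZMod ℓ)ˣ).range
      refine ⟨u, ?_⟩
      rw [powMonoidHom_apply, ← hu]
      exact hχ.symm
  rw [← InfiniteGalois.fixedField_fixingSubgroup (fieldM ℓ p ⊔ localField v), key,
    InfiniteGalois.fixedField_fixingSubgroup]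

/-- **[RQ-UNR]** -/
theorem fieldMUnram : FieldMUnramStatement := by
  intro p ℓ v _ _ _ _ hvℓ
  exact ⟨fun g => cycloChar_mem_powers hvℓ g,
    fun φ hφ g hg => cycloChar_of_frob hvℓ φ hφ g hg,
    fun h => fieldM_le_localField hvℓ h,
    fun h => fieldM_sup_localField hvℓ h⟩

end

end Fermat.Agent.H90.RQUnr
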